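/-
P-SS2 / SS2-J6A NORMREP-A (row 1018, helper88): `DegNormRepAStatement`.

Twin of `Fermat.Agent.H58.normRep_of_parts`.  Level `L q`, `q` prime, `q ∣ L`.  Here the element
is `f ∈ FC (L q)` itself, represented by `F`, and its conjugates over `FC L` are `F ∘ c_k`,
`c_k = corFamA L q k = [[1,0],[L k,1]] ∈ Γ₀(L)` (`k : ZMod q`, `c_0 = 1`).  The polynomial
`P = ∏_k (Y - F ∘ c_k)` has `Γ₀(L)`-invariant holomorphic coefficients of moderate growth, hence
coefficients in `FC L`; `P(f) = 0`; `P` is a power of the minimal polynomial of `f`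
(`Γ₀(L)` permutes the `c_k` transitively); `deg P = q = [FC (L q) : FC L]`, so
`N f = (-1)^q P(0) = ∏_k F ∘ c_k`.
-/
import Fermat.Agent.H63.SS2.Interfaces
import Fermat.Agent.H58.EsC.NormRepFinal

set_option autoImplicit false
set_option linter.style.haveILetI false
set_option linter.unusedSectionVars false

noncomputable section

open UpperHalfPlane Matrix.SpecialLinearGroup Polynomial AlgebraicCurve CongruenceSubgroup
open scoped MatrixGroups ModularForm Manifold

namespace Fermat.Agent.H88.SS2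

open Fermat.Agent.H42 Fermat.Agent.H44 Fermat.Agent.H85 Fermat.Agent.H23
open Fermat.Agent.H23.EsA Fermat.Agent.H63.SS2 Fermat.Agent.H21

/-! ### The conjugates -/

/-- The action of `corFamA L q k` on `ℍ` is the action of the matrix `lowerUni (L k)`. -/
theorem nra_corFamA_smul (L q : ℕ) (k : ZMod q) (z : ℍ) :
    corFamA L q k • z = (Fermat.Agent.H63.SS2.lowerUni ((L : ℤ) * (k.val : ℤ))) • z := by
  rw [ModularGroup.sl_moeb]
  rfl

theorem nra_lowerUni_zero : Fermat.Agent.H63.SS2.lowerUni 0 = 1 := by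
  apply Subtype.ext
  rw [Fermat.Agent.H63.SS2.lowerUni_coe]
  ext i j
  fin_cases i <;> fin_cases j <;> simp

theorem nra_lowerUni_mem (L : ℕ) (c : ℤ) : Fermat.Agent.H63.SS2.lowerUni ((L : ℤ) * c) ∈ Gamma0 L := by
  rw [Gamma0_mem]
  show (((Fermat.Agent.H63.SS2.lowerUni ((L : ℤ) * c) : SL(2, ℤ)) : Matrix (Fin 2) (Fin 2) ℤ) 1 0 : ZMod L) = 0
  rw [Fermat.Agent.H63.SS2.lowerUni_coe]
  simp

/-- The conjugates `F ∘ c_k`. -/
def nraConj (L q : ℕ) (F : ℍ → ℂ) (k : ZMod q) (z : ℍ) : ℂ := F (corFamA L q k • z)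

theorem nraConj_zero (L q : ℕ) [NeZero q] (F : ℍ → ℂ) : nraConj L q F 0 = F := by
  funext z
  unfold nraConj
  rw [nra_corFamA_smul, ZMod.val_zero, Nat.cast_zero, mul_zero, nra_lowerUni_zero, one_smul]

/-- The conjugate `F ∘ c_k` is the translate of `F` by an element of `Γ₀(L)`. -/
theorem nraConj_eq (L q : ℕ) (F : ℍ → ℂ) (k : ZMod q) (z : ℍ) :
    nraConj L q F k z = F ((Fermat.Agent.H63.SS2.lowerUni ((L : ℤ) * (k.val : ℤ))) • z) := by
  unfold nraConj
  rw [nra_corFamA_smul]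

section perm

variable {L q : ℕ} [NeZero q]

/-- Permutation of the conjugates under `Γ₀(L)`, for a `Γ₀(L q)`-invariant function. -/
theorem nraConj_smul (h : Rew2 (gamma0ToGL (L * q)) (gamma0ToGL L) (corFamA L q)) (F : ℍ → ℂ)
    (hF : ∀ g ∈ Gamma0 (L * q), ∀ τ : ℍ, F (g • τ) = F τ)
    (g : SL(2, ℤ)) (hg : g ∈ Gamma0 L) (k : ZMod q) (τ : ℍ) :
    nraConj L q F k (g • τ) = nraConj L q F (h.perm ⟨g, hg⟩ k) τ := by
  have e : corFamA L q k * mapGL ℝ g
      = mapGL ℝ ((h.kap ⟨g, hg⟩ k : Gamma0 (L * q)) : SL(2, ℤ))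
        * corFamA L q (h.tgt ⟨g, hg⟩ k) := h.spec ⟨g, hg⟩ k
  unfold nraConj
  rw [ModularGroup.sl_moeb, coe_eq_mapGL, ← mul_smul, e, mul_smul, ← coe_eq_mapGL,
    ← ModularGroup.sl_moeb, hF _ (h.kap ⟨g, hg⟩ k).2]
  rfl

/-- The analytic polynomial `∏_k (Y - F ∘ c_k)`. -/
def nraPhi (L q : ℕ) [NeZero q] (F : ℍ → ℂ) (z : ℍ) : Polynomial ℂ :=
  ∏ k : ZMod q, (X - C (nraConj L q F k z))

/-- The polynomial `∏_k (Y - F ∘ c_k)` is `Γ₀(L)`-invariant. -/
theorem nraPhi_smul (h : Rew2 (gamma0ToGL (L * q)) (gamma0ToGL L) (corFamA L q)) (F : ℍ → ℂ)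
    (hF : ∀ g ∈ Gamma0 (L * q), ∀ τ : ℍ, F (g • τ) = F τ)
    (g : SL(2, ℤ)) (hg : g ∈ Gamma0 L) (τ : ℍ) :
    nraPhi L q F (g • τ) = nraPhi L q F τ := by
  unfold nraPhi
  simp_rw [nraConj_smul h F hF g hg]
  exact Equiv.prod_comp (h.perm ⟨g, hg⟩) (fun x => X - C (nraConj L q F x τ))

end perm

/-! ### The coefficient functions -/

section coeffFn

variable (L q : ℕ) [NeZero q]

/-- The coefficient functions of `∏_k (Y - F ∘ c_k)`. -/
def nraCoeffFn (F : ℍ → ℂ) (k : ℕ) : ℍ → ℂ := fun z => (nraPhi L q F z).coeff k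

theorem nraCoeffFn_apply (F : ℍ → ℂ) (k : ℕ) (z : ℍ) :
    nraCoeffFn L q F k z = (nraPhi L q F z).coeff k := rfl

theorem nraPhi_monic (F : ℍ → ℂ) (z : ℍ) : (nraPhi L q F z).Monic :=
  monic_prod_X_sub_C _ _

theorem nraPhi_natDegree (F : ℍ → ℂ) (z : ℍ) : (nraPhi L q F z).natDegree = q := by
  unfold nraPhi
  rw [natDegree_finsetProd_X_sub_C_eq_card, Finset.card_univ, ZMod.card]

theorem nraCoeffFn_top (F : ℍ → ℂ) : nraCoeffFn L q F q = fun _ => 1 := by
  funext z
  rw [nraCoeffFn_apply]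
  have h := (nraPhi_monic L q F z).coeff_natDegree
  rwa [nraPhi_natDegree] at h

theorem nraCoeffFn_eq_zero (F : ℍ → ℂ) {k : ℕ} (hk : q < k) :
    nraCoeffFn L q F k = fun _ => 0 := by
  funext z
  rw [nraCoeffFn_apply]
  exact coeff_eq_zero_of_natDegree_lt (by rw [nraPhi_natDegree]; exact hk)

theorem nraCoeffFn_zero (F : ℍ → ℂ) (z : ℍ) :
    nraCoeffFn L q F 0 z = (-1) ^ q * ∏ k : ZMod q, nraConj L q F k z := by
  rw [nraCoeffFn_apply, coeff_zero_eq_eval_zero]
  unfold nraPhi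
  rw [eval_prod]
  simp only [eval_sub, eval_X, eval_C, zero_sub]
  rw [Finset.prod_neg, Finset.card_univ, ZMod.card]

/-- Translates of the conjugates are holomorphic of exponential growth. -/
theorem nraConj_translate_mem_nice (F : ℍ → ℂ) (hFd : MDiff F)
    (hFg : ∀ γ : SL(2, ℤ), ExpGrowth (fun z => F (γ • z)))
    (γ : SL(2, ℤ)) (k : ZMod q) :
    (fun z => nraConj L q F k (γ • z)) ∈ niceSubring := by
  have e : (fun z => nraConj L q F k (γ • z))
      = fun z => F ((Fermat.Agent.H63.SS2.lowerUni ((L : ℤ) * (k.val : ℤ)) * γ) • z) := by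
    funext z
    rw [nraConj_eq, mul_smul]
  rw [e]
  exact ⟨mdiff_comp_smul_SL hFd _, hFg _⟩

theorem nraCoeffFn_mdiff (F : ℍ → ℂ) (hFd : MDiff F)
    (hFg : ∀ γ : SL(2, ℤ), ExpGrowth (fun z => F (γ • z))) (k : ℕ) :
    MDiff (nraCoeffFn L q F k) := by
  have h := Fermat.Agent.H58.normAn_coeff_prod_mem_nice
    (fun (x : ZMod q) z => nraConj L q F x ((1 : SL(2, ℤ)) • z))
    (fun x => nraConj_translate_mem_nice L q F hFd hFg 1 x) k
  have e : (fun z => (∏ i : ZMod q, (X - C (nraConj L q F i ((1 : SL(2, ℤ)) • z)))).coeff k)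
      = nraCoeffFn L q F k := by
    funext z
    rw [one_smul]
    rfl
  rw [e] at h
  exact h.1

theorem nraCoeffFn_growth (F : ℍ → ℂ) (hFd : MDiff F)
    (hFg : ∀ γ : SL(2, ℤ), ExpGrowth (fun z => F (γ • z))) (k : ℕ) :
    Fermat.Agent.H23.EsA.ModerateGrowth (nraCoeffFn L q F k) := by
  intro γ
  have h := Fermat.Agent.H58.normAn_coeff_prod_mem_nice
    (fun (x : ZMod q) z => nraConj L q F x (γ • z))
    (fun x => nraConj_translate_mem_nice L q F hFd hFg γ x) k
  obtain ⟨-, M, C, Y, -, hb⟩ := h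
  exact ⟨M, C, Y, fun z hz => hb z hz⟩

variable {L q}

theorem nraCoeffFn_smul (h : Rew2 (gamma0ToGL (L * q)) (gamma0ToGL L) (corFamA L q))
    (F : ℍ → ℂ) (hF : ∀ g ∈ Gamma0 (L * q), ∀ τ : ℍ, F (g • τ) = F τ) (k : ℕ)
    (g : SL(2, ℤ)) (hg : g ∈ Gamma0 L) (z : ℍ) :
    nraCoeffFn L q F k (g • z) = nraCoeffFn L q F k z := by
  rw [nraCoeffFn_apply, nraCoeffFn_apply, nraPhi_smul h F hF g hg]

end coeffFn

/-! ### The assembly -/

section main

/-- **SS2-J6A (NORMREP-A)** from the ES-A statements at the levels `L`, `L q`, the degree of `α`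
and the rewriting statement. -/
theorem degNormRepA_of_parts (L q : ℕ) [NeZero L] [NeZero q]
    (hCore : CoreCStatement L) (hRep : RsubRepStatement L) (hHol : HolModularStatement L)
    (hGrow : Fermat.Agent.H94.EsA.InvariantGrowthStatement (L * q))
    (hDeg : finrankAlong ℂ (ModularCurve.heckeAlphaBar ℂ L q) = q)
    (hR : Rew2 (gamma0ToGL (L * q)) (gamma0ToGL L) (corFamA L q))
    (f : ↥(FC (L * q))) (F : ℍ → ℂ) (hFd : MDiff F) (hFf : Rep (L * q) F f) :
    Rep L (fun z => ∏ k : ZMod q, F (corFamA L q k • z))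
      (Fermat.Agent.H11.SS2.ss2NormAlong (ModularCurve.heckeAlphaBar ℂ L q) f) := by
  have hq0 : 0 < q := Nat.pos_of_ne_zero (NeZero.ne q)
  -- invariance and growth of `F`
  obtain ⟨hFinv', hFg'⟩ := hGrow f F hFf
  have hFinv : ∀ g ∈ Gamma0 (L * q), ∀ τ : ℍ, F (g • τ) = F τ :=
    fun g hg τ => hFinv' ⟨g, hg⟩ τ
  have hFg : ∀ γ : SL(2, ℤ), ExpGrowth (fun z => F (γ • z)) := fun γ => hFg' γ
  -- the coefficients
  have hex : ∀ k, ∃ c : ↥(FC L), Rep L (nraCoeffFn L q F k) c := fun k =>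
    hHol _ (nraCoeffFn_mdiff L q F hFd hFg k)
      (fun g hg z => nraCoeffFn_smul hR F hFinv k g hg z) (nraCoeffFn_growth L q F hFd hFg k)
  choose c hc using hex
  have hctop : c q = 1 := by
    have h1 := hc q
    rw [nraCoeffFn_top] at h1
    exact Subtype.ext (LaurentRel.unique_right h1 laurentRel_one)
  have hczero : ∀ k, q < k → c k = 0 := by
    intro k hk
    have h1 := hc k
    rw [nraCoeffFn_eq_zero L q F hk] at h1
    exact Subtype.ext (LaurentRel.unique_right h1 laurentRel_zero)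
  -- the polynomial
  set P : Polynomial ↥(FC L) := ∑ k ∈ Finset.range (q + 1), C (c k) * X ^ k with hPdef
  have hPcoeff : ∀ k, P.coeff k = c k := by
    intro k
    rw [hPdef, finsetSum_coeff]
    simp only [coeff_C_mul_X_pow]
    by_cases hk : k < q + 1
    · rw [Finset.sum_eq_single k]
      · simp
      · intro b _ hbk
        rw [if_neg (Ne.symm hbk)]
      · intro hk'
        exact absurd (Finset.mem_range.mpr hk) hk'
    · rw [hczero k (by omega)]
      apply Finset.sum_eq_zero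
      intro b hb
      rw [if_neg]
      intro h
      rw [h] at hk
      exact hk (Finset.mem_range.mp hb)
  have hPdeg_le : P.natDegree ≤ q :=
    natDegree_le_iff_coeff_eq_zero.mpr (fun k hk => by rw [hPcoeff, hczero k hk])
  have hPmonic : P.Monic :=
    monic_of_natDegree_le_of_coeff_eq_one q hPdeg_le (by rw [hPcoeff, hctop])
  have hPdeg : P.natDegree = q :=
    le_antisymm hPdeg_le (le_natDegree_of_ne_zero (by rw [hPcoeff, hctop]; exact one_ne_zero))
  -- the algebraic setting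
  letI alg : Algebra ↥(FC L) ↥(FC (L * q)) := algebraAlong (ModularCurve.heckeAlphaBar ℂ L q)
  letI mod : Module ↥(FC L) ↥(FC (L * q)) := alg.toModule
  have hfinrank : Module.finrank ↥(FC L) ↥(FC (L * q)) = q := hDeg
  haveI : FiniteDimensional ↥(FC L) ↥(FC (L * q)) :=
    Module.finite_of_finrank_pos (by rw [hfinrank]; exact hq0)
  haveI := Fermat.Agent.H58.normRep_isFractionRing L hCore
  obtain ⟨Θ, hΘ⟩ := Fermat.Agent.H58.normRep_exists_theta L hRep
  have hΘinv : ∀ (r : ↥(RsubC L)), ∀ g ∈ Gamma0 L, ∀ z : ℍ,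
      Θ r (g • z) = Θ r z := by
    intro r g hg z
    obtain ⟨h0, hh0, -, hinv, -⟩ := hRep (r : ↥(FC L)) r.2
    have e : Θ r = h0 := LaurentRel.unique_left (hΘ r) hh0
    rw [e]
    exact hinv g hg z
  have hH : LaurentRel (nraConj L q F 0) (f : LaurentSeries ℂ) := by
    rw [nraConj_zero]
    exact hFf
  -- `P(f) = 0`
  have hPh : aeval f P = 0 := by
    have h1 := Fermat.Agent.H58.normRep_aeval P (nraCoeffFn L q F)
      (fun k => by rw [hPcoeff]; exact hc k) f _ hH (q + 1) (by omega)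
    have h2 : (fun z => ∑ k ∈ Finset.range (q + 1),
        nraCoeffFn L q F k z * nraConj L q F 0 z ^ k) = 0 := by
      funext z
      have h3 : (nraPhi L q F z).eval (nraConj L q F 0 z) = 0 := by
        unfold nraPhi
        rw [eval_prod]
        exact Finset.prod_eq_zero (Finset.mem_univ (0 : ZMod q)) (by simp)
      rw [eval_eq_sum_range' (by rw [nraPhi_natDegree]; omega :
        (nraPhi L q F z).natDegree < q + 1)] at h3
      exact h3
    rw [h2] at h1
    exact Subtype.ext (h1.unique_right laurentRel_zero)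
  -- separation
  have hev : ∀ a : ↥(RsubC L), a ≠ 0 →
      ∃ z, ((Pi.evalRingHom (fun _ : ℍ => ℂ) z).comp Θ) a ≠ 0 := by
    intro a ha
    by_contra hcon
    push Not at hcon
    have hz : Θ a = 0 := funext fun z => hcon z
    have h1 : Rep L (0 : ℍ → ℂ) (a : ↥(FC L)) := hz ▸ hΘ a
    have h2 : ((a : ↥(FC L)) : LaurentSeries ℂ) = 0 := LaurentRel.unique_right h1 laurentRel_zero
    exact ha (Subtype.ext (Subtype.ext h2))
  -- roots
  have hroot : ∀ Q : Polynomial ↥(RsubC L),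
      aeval f (Q.map (algebraMap ↥(RsubC L) ↥(FC L))) = 0 →
      ∀ (z : ℍ) (x : ZMod q),
        (Q.map ((Pi.evalRingHom (fun _ : ℍ => ℂ) z).comp Θ)).eval (nraConj L q F x z) = 0 := by
    intro Q hQ z x
    have h1 := Fermat.Agent.H58.normRep_aeval (Q.map (algebraMap ↥(RsubC L) ↥(FC L)))
      (fun k => Θ (Q.coeff k))
      (fun k => by rw [coeff_map]; exact hΘ (Q.coeff k)) f _ hH (Q.natDegree + 1)
      (Nat.lt_succ_of_le natDegree_map_le)
    rw [hQ] at h1
    have h2 := h1.unique_left laurentRel_zero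
    have hg : Fermat.Agent.H63.SS2.lowerUni ((L : ℤ) * (x.val : ℤ)) ∈ Gamma0 L := nra_lowerUni_mem L _
    have h3 := congrFun h2 (Fermat.Agent.H63.SS2.lowerUni ((L : ℤ) * (x.val : ℤ)) • z)
    simp only [Pi.zero_apply] at h3
    rw [eval_map, eval₂_eq_sum_range' _ (Nat.lt_succ_self _)]
    rw [← h3]
    refine Finset.sum_congr rfl fun k _ => ?_
    rw [nraConj_zero, hΘinv (Q.coeff k) _ hg z, nraConj_eq]
    rfl
  -- product
  have hprod : ∀ (b : ↥(RsubC L)) (Q : Polynomial ↥(RsubC L)),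
      Q.map (algebraMap ↥(RsubC L) ↥(FC L)) = C (algebraMap ↥(RsubC L) ↥(FC L) b) * P →
      ∀ z : ℍ, Q.map ((Pi.evalRingHom (fun _ : ℍ => ℂ) z).comp Θ)
        = C (((Pi.evalRingHom (fun _ : ℍ => ℂ) z).comp Θ) b)
          * ∏ x : ZMod q, (X - C (nraConj L q F x z)) := by
    intro b Q hQ z
    ext k
    rw [coeff_map, coeff_C_mul]
    have h1 : Θ (Q.coeff k) = Θ b * nraCoeffFn L q F k := by
      refine LaurentRel.unique_left (hΘ (Q.coeff k)) ?_
      have h2 := congrArg (fun R => R.coeff k) hQ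
      simp only [coeff_map, coeff_C_mul, hPcoeff] at h2
      have h3 : (((Q.coeff k : ↥(RsubC L)) : ↥(FC L)) : LaurentSeries ℂ)
          = (((b : ↥(RsubC L)) : ↥(FC L)) : LaurentSeries ℂ)
            * ((c k : ↥(FC L)) : LaurentSeries ℂ) := by
        have h4 := congrArg (fun y : ↥(FC L) => (y : LaurentSeries ℂ)) h2
        exact h4
      rw [h3]
      exact (hΘ b).mul (hc k)
    have h5 := congrFun h1 z
    exact h5
  obtain ⟨e, he⟩ := Fermat.Agent.H58.normAlg_eq_pow_minpoly (A := ↥(RsubC L)) (K := ↥(FC L))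
    (L := ↥(FC (L * q))) (Ω := ℂ) (Z := ℍ) (ι := ZMod q)
    (fun z => (Pi.evalRingHom (fun _ : ℍ => ℂ) z).comp Θ) hev (fun z x => nraConj L q F x z)
    f P hPmonic hPh hroot hprod
  have hnorm := Fermat.Agent.H58.normAlg_norm_eq_of_eq_pow_minpoly f P e he
    (by rw [hPdeg, hfinrank])
  -- conclusion
  change Rep L (fun z => ∏ k : ZMod q, F (corFamA L q k • z)) (Algebra.norm ↥(FC L) f)
  rw [hnorm, hfinrank, hPcoeff]
  have e1 : (fun z => ∏ k : ZMod q, F (corFamA L q k • z))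
      = (fun _ => ((-1 : ℂ)) ^ q) * nraCoeffFn L q F 0 := by
    funext z
    rw [Pi.mul_apply, nraCoeffFn_zero, ← mul_assoc, ← pow_add]
    have : ((-1 : ℂ)) ^ (q + q) = 1 := by
      rw [← two_mul, pow_mul]
      simp
    rw [this, one_mul]
    rfl
  have e2 : ((((-1) ^ q * c 0 : ↥(FC L)) : ↥(FC L)) : LaurentSeries ℂ)
      = HahnSeries.C ((-1 : ℂ) ^ q) * ((c 0 : ↥(FC L)) : LaurentSeries ℂ) := by
    rw [map_pow, map_neg, map_one]
    rfl
  unfold Fermat.Agent.H23.EsA.Rep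
  rw [e1, e2]
  exact (laurentRel_const _).mul (hc 0)

/-- **SS2-J6A (NORMREP-A)**, row 1018. -/
theorem degNormRepA (hdeg : DegDegreeAStatement) (hrew : CorRewStatement) :
    DegNormRepAStatement := by
  intro L q _ _ hq hqL f F hFd hFf
  exact degNormRepA_of_parts L q (Fermat.Agent.H13.esaCoreC L) (Fermat.Agent.H13.esaRsubRep L)
    (Fermat.Agent.H32.holModular L (Fermat.Agent.H13.esaCoreC L) (Fermat.Agent.H13.esaRsubRep L)
      (Fermat.Agent.H69.DegC.degreeC L))
    (Fermat.Agent.H77.esg_invariantGrowthStatement (L * q) (Fermat.Agent.H13.esaCoreC (L * q))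
      (Fermat.Agent.H13.esaRsubRep (L * q)))
    (hdeg L q hq hqL) (hrew L q hq hqL).1 f F hFd hFf

end main

end Fermat.Agent.H88.SS2

end
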