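/-
P-SS2 / SS2-J6A NORMREP-A (row 1018, helper88), final: `DegNormRepAStatement`, UNCONDITIONAL.

The hypotheses of `degNormRepA` are discharged by the landed rows SS2-J5A
(`Fermat.Agent.H27.SS2.degDegreeA`) and SS2-J1 (`Fermat.Agent.H77.corRew`).
-/
import Fermat.Agent.H88.SS2.NormRepA
import Fermat.Agent.H27.SS2.DegB
import Fermat.Agent.H77.SS2J.CorRew

set_option autoImplicit false

namespace Fermat.Agent.H88.SS2

/-- **SS2-J6A (NORMREP-A)**, unconditional: if the holomorphic function `F` represents
`f ∈ FC (L q)`, then `z ↦ ∏ k, F ([[1,0],[L k,1]] z)` represents the norm of `f` along `α`. -/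
theorem degNormRepAStatement : Fermat.Agent.H63.SS2.DegNormRepAStatement :=
  degNormRepA Fermat.Agent.H27.SS2.degDegreeA Fermat.Agent.H77.corRew

end Fermat.Agent.H88.SS2
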